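/-
MAZ, brick CUSP' (row U7 K3-ASM, helper20), file 1: RING-LEVEL LEMMAS (Mathlib only).

* `invertible_of_mul_eq_span` : an ideal `I` with `I * J = (v)`, `v` a non-zero-divisor, is an
  invertible module;
* `mul_eq_span_of_nodeReg`    : two ideals `P`, `Q ∋ π` with `P ⊓ Q ⊆ (π)` which satisfy the
  thickness-one regularity `x * y = π * e`, `e ∉ 𝔪` at every maximal ideal `𝔪 ⊇ P ⊔ Q` have product
  `(π)` (local-global principle for the colon ideal `(P Q : π)`);
* `not_le_of_mul_eq_span`     : then neither contains the other;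
* `spanEquiv`                 : `R ≃ (v)` for a regular `v`;
* `finrank_eq_of_surjective`  : two `K`-algebras which are quotients of the same ring by the same
  kernel, with compatible `K`-structures, have the same dimension.
-/
import Mathlib

set_option autoImplicit false

namespace Fermat.Agent.MAZ.CuspJ0_20.Alg

section Invertible

variable {R : Type*} [CommRing R]

/-- An ideal `I` with `I * J = (v)`, `v` a non-zero-divisor, is an invertible module. -/
theorem invertible_of_mul_eq_span (I J : Ideal R) (v : R) (hv : v ∈ nonZeroDivisors R)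
    (h : I * J = Ideal.span {v}) : Module.Invertible R I := by
  have hinj : Function.Injective (algebraMap R (FractionRing R)) :=
    IsLocalization.injective (FractionRing R) (le_refl _)
  have : FaithfulSMul R (FractionRing R) :=
    (faithfulSMul_iff_algebraMap_injective R (FractionRing R)).mpr hinj
  obtain ⟨u, hu⟩ : IsUnit (algebraMap R (FractionRing R) v) :=
    IsLocalization.map_units (FractionRing R) (⟨v, hv⟩ : nonZeroDivisors R)
  have h1 : IsLocalization.coeSubmodule (FractionRing R) I *
      (IsLocalization.coeSubmodule (FractionRing R) J *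
        Submodule.span R {((u⁻¹ : (FractionRing R)ˣ) : FractionRing R)}) = 1 := by
    rw [← mul_assoc, ← IsLocalization.coeSubmodule_mul, h,
      IsLocalization.coeSubmodule_span_singleton, Submodule.span_mul_span,
      Set.singleton_mul_singleton, ← hu, Units.mul_inv, Submodule.one_eq_span]
  let U : (Submodule R (FractionRing R))ˣ := Units.mkOfMulEqOne _ _ h1
  have hU : Module.Invertible R (U : Submodule R (FractionRing R)) := inferInstance
  have e : I ≃ₗ[R] (IsLocalization.coeSubmodule (FractionRing R) I :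
      Submodule R (FractionRing R)) :=
    Submodule.equivMapOfInjective (Algebra.linearMap R (FractionRing R)) hinj I
  exact Module.Invertible.congr (R := R)
    (M := ((U : Submodule R (FractionRing R)) : Type _)) e.symm

/-- **The product of the two branches is `(π)`**: local-global principle for the colon ideal. -/
theorem mul_eq_span_of_nodeReg (P Q : Ideal R) (π : R) (hP : π ∈ P) (hQ : π ∈ Q)
    (hinf : ∀ x, x ∈ P → x ∈ Q → ∃ y, x = π * y)
    (hreg : ∀ 𝔪 : Ideal R, 𝔪.IsMaximal → P ≤ 𝔪 → Q ≤ 𝔪 →
      ∃ x ∈ P, ∃ y ∈ Q, ∃ e : R, e ∉ 𝔪 ∧ x * y = π * e) :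
    P * Q = Ideal.span {π} := by
  apply le_antisymm
  · intro z hz
    have h1 : z ∈ P ⊓ Q := Ideal.mul_le_inf hz
    obtain ⟨y, rfl⟩ := hinf z h1.1 h1.2
    exact Ideal.mul_mem_right _ _ (Ideal.subset_span rfl)
  · rw [Ideal.span_le, Set.singleton_subset_iff]
    by_contra hπ
    let Jc : Ideal R :=
      { carrier := {r | r * π ∈ P * Q}
        zero_mem' := by
          show (0 : R) * π ∈ P * Q
          rw [zero_mul]; exact (P * Q).zero_mem
        add_mem' := by
          intro a b ha hb
          show (a + b) * π ∈ P * Q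
          rw [add_mul]; exact (P * Q).add_mem ha hb
        smul_mem' := by
          intro c x hx
          show (c • x) * π ∈ P * Q
          rw [smul_eq_mul, mul_assoc]; exact (P * Q).mul_mem_left c hx }
    have hJc : ∀ r, r ∈ Jc ↔ r * π ∈ P * Q := fun r => Iff.rfl
    have hne : Jc ≠ ⊤ := by
      intro h
      apply hπ
      have h1 : (1 : R) ∈ Jc := by rw [h]; exact Submodule.mem_top
      have h2 := (hJc 1).1 h1
      rwa [one_mul] at h2
    obtain ⟨𝔪, h𝔪, hle⟩ := Ideal.exists_le_maximal Jc hne
    by_cases h1 : P ≤ 𝔪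
    · by_cases h2 : Q ≤ 𝔪
      · obtain ⟨x, hx, y, hy, e, he, hxy⟩ := hreg 𝔪 h𝔪 h1 h2
        refine he (hle ((hJc e).2 ?_))
        rw [mul_comm e π, ← hxy]
        exact Ideal.mul_mem_mul hx hy
      · obtain ⟨g, hgQ, hg𝔪⟩ := Set.not_subset.1 h2
        refine hg𝔪 (hle ((hJc g).2 ?_))
        rw [mul_comm g π]
        exact Ideal.mul_mem_mul hP hgQ
    · obtain ⟨g, hgP, hg𝔪⟩ := Set.not_subset.1 h1
      exact hg𝔪 (hle ((hJc g).2 (Ideal.mul_mem_mul hgP hQ)))

/-- If `P * Q = (π)` with `π` regular, `P ⊓ Q ⊆ (π)` and `Q ≠ ⊤`, then `P` is not contained in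
`Q`. -/
theorem not_le_of_mul_eq_span (P Q : Ideal R) (π : R) (hreg : ∀ x, π * x = 0 → x = 0)
    (hinf : ∀ x, x ∈ P → x ∈ Q → ∃ y, x = π * y) (hmul : P * Q = Ideal.span {π})
    (hQ : Q ≠ ⊤) : ¬ P ≤ Q := by
  intro hle
  have hP : P ≤ Ideal.span {π} := by
    intro x hx
    obtain ⟨y, rfl⟩ := hinf x hx (hle hx)
    exact Ideal.mul_mem_right _ _ (Ideal.subset_span rfl)
  have h1 : π ∈ Ideal.span {π} * Q := by
    have h2 : π ∈ P * Q := by rw [hmul]; exact Ideal.subset_span rfl
    exact Ideal.mul_mono_left hP h2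
  obtain ⟨z, hz, hπz⟩ := Ideal.mem_span_singleton_mul.1 h1
  have h3 : π * (z - 1) = 0 := by rw [mul_sub, hπz, mul_one, sub_self]
  have h4 : z = 1 := sub_eq_zero.1 (hreg _ h3)
  exact hQ ((Ideal.eq_top_iff_one Q).2 (h4 ▸ hz))

/-- `R ≃ (v)` for a regular element `v`. -/
noncomputable def spanEquiv (v : R) (hv : ∀ x, v * x = 0 → x = 0) :
    R ≃ₗ[R] ↥(Ideal.span {v} : Ideal R) :=
  LinearEquiv.ofBijective
    ((LinearMap.toSpanSingleton R R v).codRestrict (Ideal.span {v})
      (fun r => Ideal.mem_span_singleton'.2 ⟨r, rfl⟩))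
    ⟨by
      intro r r' h
      have h1 : r * v = r' * v := congrArg Subtype.val h
      have h2 : v * (r - r') = 0 := by rw [mul_sub, mul_comm v r, mul_comm v r', h1, sub_self]
      exact sub_eq_zero.1 (hv _ h2),
    by
      rintro ⟨x, hx⟩
      obtain ⟨r, rfl⟩ := Ideal.mem_span_singleton'.1 hx
      exact ⟨r, rfl⟩⟩

theorem coe_spanEquiv (v : R) (hv : ∀ x, v * x = 0 → x = 0) (x : R) :
    ((spanEquiv v hv x : ↥(Ideal.span {v} : Ideal R)) : R) = x * v := rfl

end Invertible

section Finrank

/-- Two `K`-algebras which are quotients of the same ring by the same kernel, with compatible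
`K`-structures, have the same dimension. -/
theorem finrank_eq_of_surjective {R S T K : Type*} [CommRing R] [CommRing S] [CommRing T]
    [Field K] [Algebra K S] [Algebra K T] (f : R →+* S) (g : R →+* T)
    (hf : Function.Surjective f) (hg : Function.Surjective g)
    (hker : RingHom.ker f = RingHom.ker g)
    (hK : ∀ k : K, ∃ a : R, algebraMap K S k = f a ∧ algebraMap K T k = g a) :
    Module.finrank K S = Module.finrank K T := by
  let e : S ≃+* T :=
    (RingHom.quotientKerEquivOfSurjective hf).symm.trans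
      ((Ideal.quotEquivOfEq hker).trans (RingHom.quotientKerEquivOfSurjective hg))
  have he : ∀ r : R, e (f r) = g r := by
    intro r
    have h1 : (RingHom.quotientKerEquivOfSurjective hf).symm (f r) =
        Ideal.Quotient.mk (RingHom.ker f) r := by
      rw [RingEquiv.symm_apply_eq]
      rfl
    show (RingHom.quotientKerEquivOfSurjective hg)
      ((Ideal.quotEquivOfEq hker) ((RingHom.quotientKerEquivOfSurjective hf).symm (f r))) = g r
    rw [h1, Ideal.quotEquivOfEq_mk]
    rfl
  let l : S ≃ₗ[K] T :=
    { e.toAddEquiv with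
      map_smul' := by
        intro k s
        obtain ⟨r, rfl⟩ := hf s
        obtain ⟨a, ha, hb⟩ := hK k
        show e (k • f r) = k • e (f r)
        rw [Algebra.smul_def, ha, ← map_mul, he, he, Algebra.smul_def, hb, map_mul] }
  exact l.finrank_eq

end Finrank

end Fermat.Agent.MAZ.CuspJ0_20.Alg
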