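/-
MAZ, brick CUSP' (row U7 K3-ASM, helper20), file 2: **THE VERTICAL TWIST `O(-X_i)`** (abstract).

`c : TwoChart A R0 R1 R01`, `hg : RedN3.NodalGood c p (Fin 2)` (reduced fibre `p = 0` with the two
components `X_0`, `X_1`, vertical primes `hg.P0 i ≤ R0`, `hg.P1 i ≤ R1`).

Hypotheses `NodeReg0 hg`, `NodeReg1 hg` : THICKNESS-ONE REGULARITY at the nodes: at every maximal
ideal `𝔪` of a chart containing both vertical primes there are `x ∈ P_0`, `y ∈ P_1`, `e ∉ 𝔪` with
`x * y = p * e` (`ES.P36.NodeRegAt10.NodeRegAt` for the nodal model of `X₀(M' q)` over `W`).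

* `P0_mul_eq`, `P1_mul_eq` : `hg.P0 0 * hg.P0 1 = (p)`, so the vertical primes are INVERTIBLE ideals
  (`invertible_P0`, `invertible_P1`): the components are Cartier divisors;
* `compPair hg i : IdealPair R0 R1 R01` := `(hg.P0 i, hg.P1 i)`,
  `twist hg h0 h1 i : LinePic c` := the class of `O(-X_i) = ofIdeals c (compPair hg i)`;
* `twist_mul` : `twist 0 * twist 1 = 1` (`O(-X_0 - X_1) = (p) ≅ O`);
* `bc_twist_eq_one` : the twist is trivial on every base change in which `p` becomes a unit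
  (the generic fibre);
* `res_twist` : for `i ≠ j`, the restriction of `O(-X_i)` to the component `X_j` is the ideal sheaf
  of the nodes on `X_j` (closure of the chart-0 ideal `hg.P0 i · C0`), when no node lies at infinity;
* `Mdeg_twist_of_ne` : `deg (O(-X_i)|X_j) = - dim_K (C0_j ⧸ P0_i C0_j)`;
* `nodeNumber`, `nodeNumber_pos`, `nodeNumber_eq` : `ν = dim_K R0 ⧸ (P0 0 ⊔ P0 1)`, the number of
  nodes (counted with residue degrees), positive, computed on either component;
* **`Mdeg_twist_zero`** : `Mdeg (twist 0) = (ν, -ν)`.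
-/
import Mathlib
import Fermat.Agent.MAZ.CuspJ0_20.Alg
import Fermat.Agent.T1B.Bal60.IdealRes
import Fermat.Agent.T1B.Bal60.Transversal
import Fermat.Agent.T1B.Bal60.Quot
import Fermat.Agent.T1B.Desc43.ProdCls
import Fermat.Agent.T1.Adapt96.ToLinePair
import Fermat.Agent.Jac.Chart43.DivisorOfSection
import Fermat.Agent.Jac.DegAdd79Alg

set_option autoImplicit false
set_option linter.style.haveILetI false
set_option linter.unusedSectionVars false

universe u

open TensorProduct

namespace Fermat.Agent.MAZ.CuspJ0_20.Twist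

open Fermat.Agent.Jac Fermat.Agent.Jac.LineOps39 Fermat.Agent.Jac.JSmooth85Alg
  Fermat.Agent.Jac.JGroup85Pic Fermat.Agent.Jac.BaseChange75 Fermat.Agent.T1B.RedN3
  Fermat.Agent.T1B.Bal60 Fermat.Agent.T1.PtLine75 Fermat.Agent.T1B.Desc43
  Fermat.Agent.MAZ.CuspJ0_20.Alg

variable {A R0 R1 R01 : Type u} [CommRing A] [CommRing R0] [CommRing R1] [CommRing R01]
  [Algebra A R0] [Algebra A R1] [Algebra A R01] [Algebra R0 R01] [Algebra R1 R01]
  [IsScalarTower A R0 R01] [IsScalarTower A R1 R01]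
  {c : TwoChart A R0 R1 R01} {p : A} (hg : NodalGood c p (Fin 2))

/-! ### The hypotheses -/

/-- Thickness-one regularity at the nodes of chart 0. -/
def NodeReg0 : Prop :=
  ∀ 𝔪 : Ideal R0, 𝔪.IsMaximal → hg.P0 0 ≤ 𝔪 → hg.P0 1 ≤ 𝔪 →
    ∃ x ∈ hg.P0 0, ∃ y ∈ hg.P0 1, ∃ e : R0, e ∉ 𝔪 ∧ x * y = algebraMap A R0 p * e

/-- Thickness-one regularity at the nodes of chart 1. -/
def NodeReg1 : Prop :=
  ∀ 𝔪 : Ideal R1, 𝔪.IsMaximal → hg.P1 0 ≤ 𝔪 → hg.P1 1 ≤ 𝔪 →
    ∃ x ∈ hg.P1 0, ∃ y ∈ hg.P1 1, ∃ e : R1, e ∉ 𝔪 ∧ x * y = algebraMap A R1 p * e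

/-! ### The vertical primes are invertible -/

theorem inf0_two {x : R0} (h0 : x ∈ hg.P0 0) (h1 : x ∈ hg.P0 1) :
    ∃ y : R0, x = algebraMap A R0 p * y :=
  hg.inf0 x (Fin.forall_fin_two.2 ⟨h0, h1⟩)

theorem inf1_two {x : R1} (h0 : x ∈ hg.P1 0) (h1 : x ∈ hg.P1 1) :
    ∃ y : R1, x = algebraMap A R1 p * y :=
  hg.inf1 x (Fin.forall_fin_two.2 ⟨h0, h1⟩)

include hg in
theorem mem_nonZeroDivisors0 : algebraMap A R0 p ∈ nonZeroDivisors R0 := by
  rw [mem_nonZeroDivisors_iff_right]
  intro x hx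
  exact hg.reg0 x (by rw [mul_comm]; exact hx)

include hg in
theorem mem_nonZeroDivisors1 : algebraMap A R1 p ∈ nonZeroDivisors R1 := by
  rw [mem_nonZeroDivisors_iff_right]
  intro x hx
  exact hg.reg1 x (by rw [mul_comm]; exact hx)

section Reg

variable (h0 : NodeReg0 hg) (h1 : NodeReg1 hg)

include h0 in
/-- **`P_0 P_1 = (p)` on chart 0.** -/
theorem P0_mul_eq : hg.P0 0 * hg.P0 1 = Ideal.span {algebraMap A R0 p} :=
  mul_eq_span_of_nodeReg _ _ _ (hg.mem0 0) (hg.mem0 1) (fun _ hx0 hx1 => inf0_two hg hx0 hx1) h0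

include h1 in
/-- **`P_0 P_1 = (p)` on chart 1.** -/
theorem P1_mul_eq : hg.P1 0 * hg.P1 1 = Ideal.span {algebraMap A R1 p} :=
  mul_eq_span_of_nodeReg _ _ _ (hg.mem1 0) (hg.mem1 1) (fun _ hx0 hx1 => inf1_two hg hx0 hx1) h1

include h0 in
theorem P0_mul_eq' (i j : Fin 2) (hij : i ≠ j) :
    hg.P0 i * hg.P0 j = Ideal.span {algebraMap A R0 p} := by
  fin_cases i <;> fin_cases j
  · exact absurd rfl hij
  · exact P0_mul_eq hg h0
  · rw [mul_comm]; exact P0_mul_eq hg h0
  · exact absurd rfl hij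

include h1 in
theorem P1_mul_eq' (i j : Fin 2) (hij : i ≠ j) :
    hg.P1 i * hg.P1 j = Ideal.span {algebraMap A R1 p} := by
  fin_cases i <;> fin_cases j
  · exact absurd rfl hij
  · exact P1_mul_eq hg h1
  · rw [mul_comm]; exact P1_mul_eq hg h1
  · exact absurd rfl hij

/-- The other index. -/
def other (i : Fin 2) : Fin 2 := if i = 0 then 1 else 0

theorem other_ne (i : Fin 2) : i ≠ other i := by
  fin_cases i <;> simp [other]

theorem eq_other_of_ne {i j : Fin 2} (hij : i ≠ j) : j = other i := by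
  fin_cases i <;> fin_cases j <;> simp_all [other]

include h0 in
/-- The vertical primes of chart 0 are invertible ideals. -/
theorem invertible_P0 (i : Fin 2) : Module.Invertible R0 (hg.P0 i) :=
  invertible_of_mul_eq_span _ (hg.P0 (other i)) _ (mem_nonZeroDivisors0 hg)
    (P0_mul_eq' hg h0 i (other i) (other_ne i))

include h1 in
/-- The vertical primes of chart 1 are invertible ideals. -/
theorem invertible_P1 (i : Fin 2) : Module.Invertible R1 (hg.P1 i) :=
  invertible_of_mul_eq_span _ (hg.P1 (other i)) _ (mem_nonZeroDivisors1 hg)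
    (P1_mul_eq' hg h1 i (other i) (other_ne i))

include h0 in
/-- The two vertical primes of chart 0 are incomparable. -/
theorem not_P0_le (i j : Fin 2) (hij : i ≠ j) : ¬ hg.P0 i ≤ hg.P0 j := by
  haveI := hg.prime0 j
  refine not_le_of_mul_eq_span _ _ _ hg.reg0 ?_ (P0_mul_eq' hg h0 i j hij)
    (Ideal.IsPrime.ne_top inferInstance)
  intro x hxi hxj
  fin_cases i <;> fin_cases j
  · exact absurd rfl hij
  · exact inf0_two hg hxi hxj
  · exact inf0_two hg hxj hxi
  · exact absurd rfl hij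

include h1 in
/-- The two vertical primes of chart 1 are incomparable. -/
theorem not_P1_le (i j : Fin 2) (hij : i ≠ j) : ¬ hg.P1 i ≤ hg.P1 j := by
  haveI := hg.prime1 j
  refine not_le_of_mul_eq_span _ _ _ hg.reg1 ?_ (P1_mul_eq' hg h1 i j hij)
    (Ideal.IsPrime.ne_top inferInstance)
  intro x hxi hxj
  fin_cases i <;> fin_cases j
  · exact absurd rfl hij
  · exact inf1_two hg hxi hxj
  · exact inf1_two hg hxj hxi
  · exact absurd rfl hij

end Reg

/-! ### The ideal pairs of the components and the twists -/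

theorem map_P0_eq_Q (i : Fin 2) : (hg.P0 i).map (algebraMap R0 R01) = hg.Q i :=
  le_antisymm (by rw [← hg.comap0 i]; exact Ideal.map_comap_le) (Q_le_map0 hg i)

theorem map_P1_eq_Q (i : Fin 2) : (hg.P1 i).map (algebraMap R1 R01) = hg.Q i :=
  le_antisymm (by rw [← hg.comap1 i]; exact Ideal.map_comap_le) (Q_le_map1 hg i)

/-- The ideal pair of the component `X_i` (a vertical Cartier divisor). -/
def compPair (i : Fin 2) : IdealPair R0 R1 R01 where
  I0 := hg.P0 i
  I1 := hg.P1 i
  compat := by rw [map_P0_eq_Q, map_P1_eq_Q]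

@[simp] theorem compPair_I0 (i : Fin 2) : (compPair hg i).I0 = hg.P0 i := rfl
@[simp] theorem compPair_I1 (i : Fin 2) : (compPair hg i).I1 = hg.P1 i := rfl

/-- The principal ideal pair `(p)`. -/
def pPair (c : TwoChart A R0 R1 R01) (p : A) : IdealPair R0 R1 R01 where
  I0 := Ideal.span {algebraMap A R0 p}
  I1 := Ideal.span {algebraMap A R1 p}
  compat := by
    rw [Ideal.map_span, Ideal.map_span, Set.image_singleton, Set.image_singleton,
      ← IsScalarTower.algebraMap_apply, ← IsScalarTower.algebraMap_apply]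

section Twist

variable (h0 : NodeReg0 hg) (h1 : NodeReg1 hg)

include h0 h1 in
theorem isLine_compPair (i : Fin 2) : (ofIdeals c (compPair hg i)).IsLine :=
  isLine_ofIdeals c (compPair hg i) (invertible_P0 hg h0 i) (invertible_P1 hg h1 i)

/-- **The vertical twist** `O(-X_i)`. -/
noncomputable def twist (i : Fin 2) : LinePic c :=
  LinePic.mk c (ofIdeals c (compPair hg i)) (isLine_compPair hg h0 h1 i)

include h0 h1 in
theorem compPair_mul : (compPair hg 0).mul (compPair hg 1) = pPair c p :=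
  idealPair_ext (P0_mul_eq hg h0) (P1_mul_eq hg h1)

/-- `(p) ≅ O`. -/
noncomputable def pPairIso : QC2.Iso (QC2.unit : QC2 A R0 R1 R01) (ofIdeals c (pPair c p)) where
  e0 := spanEquiv (algebraMap A R0 p) hg.reg0
  e1 := spanEquiv (algebraMap A R1 p) hg.reg1
  e01 := (spanEquiv (algebraMap A R01 p) hg.reg01).trans
    (LinearEquiv.ofEq _ _ (by
      show Ideal.span {algebraMap A R01 p} = (pPair c p).I01
      show _ = (Ideal.span {algebraMap A R0 p}).map (algebraMap R0 R01)
      rw [Ideal.map_span, Set.image_singleton, ← IsScalarTower.algebraMap_apply]))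
  comm0 := by
    intro (x : R0)
    apply Subtype.ext
    show algebraMap R0 R01 x * algebraMap A R01 p = algebraMap R0 R01 (x * algebraMap A R0 p)
    rw [map_mul, ← IsScalarTower.algebraMap_apply]
  comm1 := by
    intro (x : R1)
    apply Subtype.ext
    show algebraMap R1 R01 x * algebraMap A R01 p = algebraMap R1 R01 (x * algebraMap A R1 p)
    rw [map_mul, ← IsScalarTower.algebraMap_apply]

include hg in
theorem isLine_pPair : (ofIdeals c (pPair c p)).IsLine :=
  isLine_of_iso (pPairIso hg) isLine_unit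

include hg in
theorem mk_pPair : LinePic.mk c (ofIdeals c (pPair c p)) (isLine_pPair hg) = 1 :=
  (LinePic.mk_eq_mk isLine_unit (isLine_pPair hg) (pPairIso hg)).symm

include h0 h1 in
/-- **`O(-X_0) ⊗ O(-X_1) ≅ O`.** -/
theorem twist_mul : twist hg h0 h1 0 * twist hg h0 h1 1 = 1 := by
  have hL : (ofIdeals c ((compPair hg 0).mul (compPair hg 1))).IsLine :=
    Fermat.Agent.T1.Adapt96.isLine_ofIdeals_mul c _ _ (isLine_compPair hg h0 h1 0)
      (isLine_compPair hg h0 h1 1)
  unfold twist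
  rw [← Fermat.Agent.T1.Adapt96.mk_ofIdeals_mul c _ _ (isLine_compPair hg h0 h1 0)
    (isLine_compPair hg h0 h1 1) hL,
    linePic_mk_congr c (by rw [compPair_mul hg h0 h1]) hL (isLine_pPair hg)]
  exact mk_pPair hg

end Twist

end Fermat.Agent.MAZ.CuspJ0_20.Twist
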