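/-
MAZ, brick CUSP' (row U7 K3-ASM, helper20), file 3: **THE MULTIDEGREE OF THE VERTICAL TWIST**.

Setting of `Twist.lean`: `hg : NodalGood c p (Fin 2)`, `h0 : NodeReg0 hg`, `h1 : NodeReg1 hg`,
`twist hg h0 h1 i = [O(-X_i)] : LinePic c`.

* `bc_twist_eq_one` : `LinePic.bc … (twist i) = 1` along every cube `c → c'` in which `p` becomes a
  unit (generic fibre), given injectivity of `R_j' ⊗ P_j i → R_j'` (e.g. `R_j'` flat over `R_j`);
* for components `X i : Comp c (hg.P0 i) (hg.P1 i) K`: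
  `res_twist` : for `i ≠ j`, `(X j).res (twist i)` is the class of the ideal sheaf of the closure of
  `V(hg.P0 i · C0)` (the nodes on `X_j`), if no node lies at infinity (`AwayNodes`);
  `Mdeg_twist_of_ne` : `Mdeg (twist i) j = ofAdd (- dim_K (C0_j ⧸ P0_i C0_j))`;
* `nodeNumber hg X = dim_K (C0_1 ⧸ P0_0 C0_1)`, `nodeNumber_pos` (a node exists in chart 0),
  `finrank_nodes_eq` (the same number on the other component, `K`-structures induced from `A`);
* **`Mdeg_twist_zero_zero`, `Mdeg_twist_zero_one`** : `Mdeg (twist 0) = (ν, -ν)`.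
-/
import Mathlib
import Fermat.Agent.MAZ.CuspJ0_20.Twist

set_option autoImplicit false
set_option linter.style.haveILetI false
set_option linter.unusedSectionVars false

universe u

open TensorProduct Polynomial

namespace Fermat.Agent.MAZ.CuspJ0_20.Twist

open Fermat.Agent.Jac Fermat.Agent.Jac.LineOps39 Fermat.Agent.Jac.JSmooth85Alg
  Fermat.Agent.Jac.JGroup85Pic Fermat.Agent.Jac.BaseChange75 Fermat.Agent.T1B.RedN3
  Fermat.Agent.T1B.Bal60 Fermat.Agent.T1.PtLine75 Fermat.Agent.T1B.Desc43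
  Fermat.Agent.MAZ.CuspJ0_20.Alg

variable {A R0 R1 R01 : Type u} [CommRing A] [CommRing R0] [CommRing R1] [CommRing R01]
  [Algebra A R0] [Algebra A R1] [Algebra A R01] [Algebra R0 R01] [Algebra R1 R01]
  [IsScalarTower A R0 R01] [IsScalarTower A R1 R01]
  {c : TwoChart A R0 R1 R01} {p : A} (hg : NodalGood c p (Fin 2))
  (h0 : NodeReg0 hg) (h1 : NodeReg1 hg)

/-! ### Triviality on the generic fibre -/

section Generic

variable {A' R0' R1' R01' : Type u} [CommRing A'] [CommRing R0'] [CommRing R1'] [CommRing R01']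
  [Algebra A' R0'] [Algebra A' R1'] [Algebra A' R01'] [Algebra R0' R01'] [Algebra R1' R01']
  [IsScalarTower A' R0' R01'] [IsScalarTower A' R1' R01']
  [Algebra R0 R0'] [Algebra R1 R1'] [Algebra R01 R01']
  (hc0 : (algebraMap R0' R01').comp (algebraMap R0 R0') =
    (algebraMap R01 R01').comp (algebraMap R0 R01))
  (hc1 : (algebraMap R1' R01').comp (algebraMap R1 R1') =
    (algebraMap R01 R01').comp (algebraMap R1 R01))
  (c' : TwoChart A' R0' R1' R01')

/-- **The twist is trivial on the generic fibre.** -/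
theorem bc_twist_eq_one (i : Fin 2)
    (hu0 : IsUnit (algebraMap R0 R0' (algebraMap A R0 p)))
    (hu1 : IsUnit (algebraMap R1 R1' (algebraMap A R1 p)))
    (hinj0 : Function.Injective ((Submodule.subtype (hg.P0 i)).baseChange R0'))
    (hinj1 : Function.Injective ((Submodule.subtype (hg.P1 i)).baseChange R1')) :
    LinePic.bc hc0 hc1 c c' (twist hg h0 h1 i) = 1 := by
  have hD : (compPair hg i).IsBC (IdealPair.top : IdealPair R0' R1' R01') :=
    { h0 := (Ideal.eq_top_of_isUnit_mem _ (Ideal.mem_map_of_mem _ (hg.mem0 i)) hu0).symm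
      h1 := (Ideal.eq_top_of_isUnit_mem _ (Ideal.mem_map_of_mem _ (hg.mem1 i)) hu1).symm }
  have ld := liftDataOfIdeals hc0 hc1 c c' hD hinj0 hinj1
  unfold twist
  rw [LinePic.bc_mk hc0 hc1 c c' (isLine_compPair hg h0 h1 i) ld]
  exact mk_ofIdeals_top c' _

end Generic

/-! ### Restriction to the other component -/

section Comp

variable {K : Type u} [Field K] (X : ∀ i, Comp c (hg.P0 i) (hg.P1 i) K)

/-- No node lies at infinity: `s` is a unit modulo `P1 0 ⊔ P1 1`. -/
def AwayNodes : Prop := ∃ w : R1, 1 + c.s * w ∈ hg.P1 0 ⊔ hg.P1 1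

theorem sup_P1_eq (i j : Fin 2) (hij : i ≠ j) : hg.P1 0 ⊔ hg.P1 1 = hg.P1 i ⊔ hg.P1 j := by
  fin_cases i <;> fin_cases j
  · exact absurd rfl hij
  · rfl
  · exact sup_comm _ _
  · exact absurd rfl hij

theorem sup_P0_eq (i j : Fin 2) (hij : i ≠ j) : hg.P0 0 ⊔ hg.P0 1 = hg.P0 i ⊔ hg.P0 j := by
  fin_cases i <;> fin_cases j
  · exact absurd rfl hij
  · rfl
  · exact sup_comm _ _
  · exact absurd rfl hij

/-- The ideal of the nodes on the chart 0 of the component `X j`. -/
abbrev nodeIdeal0 (i j : Fin 2) : Ideal (X j).C0 := (hg.P0 i).map (algebraMap R0 (X j).C0)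

/-- The ideal of the nodes on the chart 1 of the component `X j`. -/
abbrev nodeIdeal1 (i j : Fin 2) : Ideal (X j).C1 := (hg.P1 i).map (algebraMap R1 (X j).C1)

include h0 in
theorem transversal0 (i j : Fin 2) (hij : i ≠ j) :
    hg.P0 i ⊓ RingHom.ker (algebraMap R0 (X j).C0) ≤
      hg.P0 i * RingHom.ker (algebraMap R0 (X j).C0) := by
  haveI := invertible_P0 hg h0 i
  haveI := hg.prime0 j
  rw [(X j).ker0]
  exact inf_le_mul_of_invertible (hg.P0 i) (hg.P0 j) (not_P0_le hg h0 i j hij)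

include h1 in
theorem transversal1 (i j : Fin 2) (hij : i ≠ j) :
    hg.P1 i ⊓ RingHom.ker (algebraMap R1 (X j).C1) ≤
      hg.P1 i * RingHom.ker (algebraMap R1 (X j).C1) := by
  haveI := invertible_P1 hg h1 i
  haveI := hg.prime1 j
  rw [(X j).ker1]
  exact inf_le_mul_of_invertible (hg.P1 i) (hg.P1 j) (not_P1_le hg h1 i j hij)

/-- The ideal pair of `X_i` restricts on `X_j` to the closure of the chart-0 node ideal. -/
theorem isBC_compPair (i j : Fin 2) (hij : i ≠ j)
    (hs : algebraMap R1 (X j).C1 c.s = (X j).chart.s) (haway : AwayNodes hg) :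
    (compPair hg i).IsBC (IdealPair.ofChart0 (X j).chart (nodeIdeal0 hg X i j)) where
  h0 := rfl
  h1 := by
    obtain ⟨w, hw⟩ := haway
    rw [sup_P1_eq hg i j hij] at hw
    obtain ⟨a, ha, b, hb, hab⟩ := Submodule.mem_sup.1 hw
    have hb0 : algebraMap R1 (X j).C1 b = 0 := by
      have : b ∈ RingHom.ker (algebraMap R1 (X j).C1) := by rw [(X j).ker1]; exact hb
      exact this
    have hw' : 1 + (X j).chart.s * algebraMap R1 (X j).C1 w ∈ nodeIdeal1 hg X i j := by
      have e : 1 + (X j).chart.s * algebraMap R1 (X j).C1 w = algebraMap R1 (X j).C1 a := by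
        rw [← hs, ← map_mul, ← map_one (algebraMap R1 (X j).C1), ← map_add, ← hab, map_add, hb0,
          add_zero]
      rw [e]
      exact Ideal.mem_map_of_mem _ ha
    have e1 : (nodeIdeal0 hg X i j).map (algebraMap (X j).C0 (X j).C01) =
        (nodeIdeal1 hg X i j).map (algebraMap (X j).C1 (X j).C01) := by
      unfold nodeIdeal0 nodeIdeal1
      rw [Ideal.map_map, Ideal.map_map, (X j).hc0, (X j).hc1, ← Ideal.map_map, ← Ideal.map_map,
        map_P0_eq_Q, map_P1_eq_Q]
    show ((nodeIdeal0 hg X i j).map (algebraMap (X j).C0 (X j).C01)).comap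
      (algebraMap (X j).C1 (X j).C01) = (hg.P1 i).map (algebraMap R1 (X j).C1)
    rw [e1]
    exact Fermat.Agent.Jac.Chart43.comap_map_eq_of_one_add_s_mul_mem (X j).chart _ _ hw'

/-- The restriction datum of `O(-X_i)` to `X_j`. -/
noncomputable def liftDataTwistRes (i j : Fin 2) (hij : i ≠ j)
    (hs : algebraMap R1 (X j).C1 c.s = (X j).chart.s) (haway : AwayNodes hg) :
    LiftData (ofIdeals c (compPair hg i))
      (ofIdeals (X j).chart (IdealPair.ofChart0 (X j).chart (nodeIdeal0 hg X i j))) :=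
  liftDataOfIdeals (X j).hc0 (X j).hc1 c (X j).chart (isBC_compPair hg X i j hij hs haway)
    (injective_baseChange_subtype (X j).surj0 (hg.P0 i) (transversal0 hg h0 X i j hij))
    (injective_baseChange_subtype (X j).surj1 (hg.P1 i) (transversal1 hg h1 X i j hij))

include h0 h1 in
theorem isLine_twistRes (i j : Fin 2) (hij : i ≠ j)
    (hs : algebraMap R1 (X j).C1 c.s = (X j).chart.s) (haway : AwayNodes hg) :
    (ofIdeals (X j).chart (IdealPair.ofChart0 (X j).chart (nodeIdeal0 hg X i j))).IsLine :=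
  LiftData.isLine (liftDataTwistRes hg h0 h1 X i j hij hs haway) (isLine_compPair hg h0 h1 i)

/-- **Restriction of the twist to the other component**: the ideal sheaf of the nodes. -/
theorem res_twist (i j : Fin 2) (hij : i ≠ j)
    (hs : algebraMap R1 (X j).C1 c.s = (X j).chart.s) (haway : AwayNodes hg) :
    (X j).res (twist hg h0 h1 i) =
      LinePic.mk (X j).chart _ (isLine_twistRes hg h0 h1 X i j hij hs haway) :=
  LinePic.bc_mk (X j).hc0 (X j).hc1 c (X j).chart (isLine_compPair hg h0 h1 i)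
    (liftDataTwistRes hg h0 h1 X i j hij hs haway)

/-! ### Finiteness of the node ring -/

include h0 in
theorem nodeIdeal0_ne_bot (i j : Fin 2) (hij : i ≠ j) : nodeIdeal0 hg X i j ≠ ⊥ := by
  intro h
  apply not_P0_le hg h0 i j hij
  intro x hx
  have h2 : algebraMap R0 (X j).C0 x ∈ nodeIdeal0 hg X i j := Ideal.mem_map_of_mem _ hx
  rw [h, Ideal.mem_bot] at h2
  rw [← (X j).ker0]
  exact h2

theorem nodeIdeal0_ne_top (i j : Fin 2) (hij : i ≠ j) (hnode : hg.P0 0 ⊔ hg.P0 1 ≠ ⊤) :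
    nodeIdeal0 hg X i j ≠ ⊤ := by
  intro h
  apply hnode
  rw [sup_P0_eq hg i j hij, Ideal.eq_top_iff_one]
  have h1 : (1 : (X j).C0) ∈ nodeIdeal0 hg X i j := by rw [h]; exact Submodule.mem_top
  obtain ⟨x, hx, hx1⟩ := (Ideal.mem_map_iff_of_surjective _ (X j).surj0).1 h1
  have h2 : x - 1 ∈ hg.P0 j := by
    rw [← (X j).ker0, RingHom.mem_ker, map_sub, hx1, map_one, sub_self]
  have e : (1 : R0) = x - (x - 1) := by ring
  rw [e]
  exact Ideal.sub_mem _ (Ideal.mem_sup_left hx) (Ideal.mem_sup_right h2)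

/-- A nonzero ideal of a domain finite over `K[t]` has finite-dimensional quotient. -/
theorem finite_quot_of_ne_bot {C : Type*} [CommRing C] [IsDomain C] [Algebra K C] (t : C)
    (hfin : Module.Finite K[X] (Module.AEval K C t)) (J : Ideal C) (hJ : J ≠ ⊥) :
    Module.Finite K (C ⧸ J) := by
  obtain ⟨x, hxJ, hx0⟩ := Submodule.exists_mem_ne_zero_of_ne_bot hJ
  haveI : Module.Finite K (C ⧸ Submodule.span C {x}) :=
    DegAdd79Alg.finite_quotient_span_singleton (N := C) t hfin x hx0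
  have hle : Submodule.span C {x} ≤ Submodule.comap (LinearMap.id : C →ₗ[C] C) J := by
    rw [Submodule.span_le, Set.singleton_subset_iff]
    exact hxJ
  let φ : (C ⧸ Submodule.span C {x}) →ₗ[K] (C ⧸ J) :=
    (Submodule.mapQ (Submodule.span C {x}) J LinearMap.id hle).restrictScalars K
  refine Module.Finite.of_surjective φ ?_
  intro z
  obtain ⟨y, rfl⟩ := Ideal.Quotient.mk_surjective z
  exact ⟨Submodule.Quotient.mk y, rfl⟩

include h0 in
theorem finite_quot_nodeIdeal0 (i j : Fin 2) (hij : i ≠ j) :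
    Module.Finite K ((X j).C0 ⧸ nodeIdeal0 hg X i j) :=
  finite_quot_of_ne_bot (X j).chart.t (X j).fpl.fin0 _ (nodeIdeal0_ne_bot hg h0 X i j hij)

/-! ### The multidegree -/

include h0 h1 in
/-- **The degree of `O(-X_i)` on the other component**: minus the number of nodes. -/
theorem Mdeg_twist_of_ne (i j : Fin 2) (hij : i ≠ j)
    (hs : algebraMap R1 (X j).C1 c.s = (X j).chart.s) (haway : AwayNodes hg) :
    Mdeg hg X (twist hg h0 h1 i) j =
      Multiplicative.ofAdd (-(Module.finrank K ((X j).C0 ⧸ nodeIdeal0 hg X i j) : ℤ)) := by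
  haveI := finite_quot_nodeIdeal0 hg h0 X i j hij
  haveI : Module.Invertible (X j).C0 (nodeIdeal0 hg X i j) :=
    (isLine_twistRes hg h0 h1 X i j hij hs haway).1
  rw [Mdeg_apply, res_twist hg h0 h1 X i j hij hs haway, degHom_mk,
    lineDeg_ofIdeals_ofChart0 (X j).chart (X j).fpl]

/-- **The number of nodes** (counted with residue degrees), computed on the component `X 1`. -/
noncomputable def nodeNumber : ℕ := Module.finrank K ((X 1).C0 ⧸ nodeIdeal0 hg X 0 1)

include h0 in
theorem finrank_nodeIdeal0_pos (i j : Fin 2) (hij : i ≠ j) (hnode : hg.P0 0 ⊔ hg.P0 1 ≠ ⊤) :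
    0 < Module.finrank K ((X j).C0 ⧸ nodeIdeal0 hg X i j) := by
  haveI := finite_quot_nodeIdeal0 hg h0 X i j hij
  haveI : Nontrivial ((X j).C0 ⧸ nodeIdeal0 hg X i j) :=
    Ideal.Quotient.nontrivial_iff.2 (nodeIdeal0_ne_top hg X i j hij hnode)
  exact Module.finrank_pos

include h0 in
theorem nodeNumber_pos (hnode : hg.P0 0 ⊔ hg.P0 1 ≠ ⊤) : 0 < nodeNumber hg X :=
  finrank_nodeIdeal0_pos hg h0 X 0 1 (by decide) hnode

/-- The kernel of `R0 → C0_j ⧸ (nodes)` is `P0 i ⊔ P0 j`. -/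
theorem ker_toNodeRing (i j : Fin 2) :
    RingHom.ker ((Ideal.Quotient.mk (nodeIdeal0 hg X i j)).comp (algebraMap R0 (X j).C0)) =
      hg.P0 i ⊔ hg.P0 j := by
  ext x
  rw [RingHom.mem_ker, RingHom.comp_apply, Ideal.Quotient.eq_zero_iff_mem]
  constructor
  · intro hx
    obtain ⟨y, hy, hyx⟩ := (Ideal.mem_map_iff_of_surjective _ (X j).surj0).1 hx
    have h2 : x - y ∈ hg.P0 j := by
      rw [← (X j).ker0, RingHom.mem_ker, map_sub, hyx, sub_self]
    have e : x = y + (x - y) := by ring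
    rw [e]
    exact Ideal.add_mem _ (Ideal.mem_sup_left hy) (Ideal.mem_sup_right h2)
  · intro hx
    obtain ⟨a, ha, b, hb, rfl⟩ := Submodule.mem_sup.1 hx
    have hb0 : algebraMap R0 (X j).C0 b = 0 := by
      have : b ∈ RingHom.ker (algebraMap R0 (X j).C0) := by rw [(X j).ker0]; exact hb
      exact this
    rw [map_add, hb0, add_zero]
    exact Ideal.mem_map_of_mem _ ha

/-- The number of nodes is the same on both components, if the `K`-structures of the components
are induced from `A`. -/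
theorem finrank_nodes_eq
    (hKA : ∀ k : K, ∃ a : A, ∀ i, algebraMap K (X i).C0 k =
      algebraMap R0 (X i).C0 (algebraMap A R0 a)) :
    Module.finrank K ((X 0).C0 ⧸ nodeIdeal0 hg X 1 0) = nodeNumber hg X := by
  unfold nodeNumber
  refine finrank_eq_of_surjective
    ((Ideal.Quotient.mk (nodeIdeal0 hg X 1 0)).comp (algebraMap R0 (X 0).C0))
    ((Ideal.Quotient.mk (nodeIdeal0 hg X 0 1)).comp (algebraMap R0 (X 1).C0))
    (Ideal.Quotient.mk_surjective.comp (X 0).surj0)
    (Ideal.Quotient.mk_surjective.comp (X 1).surj0) ?_ ?_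
  · rw [ker_toNodeRing, ker_toNodeRing, sup_comm]
  · intro k
    obtain ⟨a, ha⟩ := hKA k
    refine ⟨algebraMap A R0 a, ?_, ?_⟩
    · rw [IsScalarTower.algebraMap_apply K (X 0).C0 ((X 0).C0 ⧸ nodeIdeal0 hg X 1 0), ha 0]
      rfl
    · rw [IsScalarTower.algebraMap_apply K (X 1).C0 ((X 1).C0 ⧸ nodeIdeal0 hg X 0 1), ha 1]
      rfl

include h0 h1 in
/-- **`deg (O(-X_0)|X_1) = -ν`.** -/
theorem Mdeg_twist_zero_one (hs : algebraMap R1 (X 1).C1 c.s = (X 1).chart.s)
    (haway : AwayNodes hg) :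
    Mdeg hg X (twist hg h0 h1 0) 1 = Multiplicative.ofAdd (-(nodeNumber hg X : ℤ)) :=
  Mdeg_twist_of_ne hg h0 h1 X 0 1 (by decide) hs haway

include h0 h1 in
/-- **`deg (O(-X_0)|X_0) = ν`** (from `O(-X_0) ⊗ O(-X_1) ≅ O`). -/
theorem Mdeg_twist_zero_zero (hs : algebraMap R1 (X 0).C1 c.s = (X 0).chart.s)
    (haway : AwayNodes hg)
    (hKA : ∀ k : K, ∃ a : A, ∀ i, algebraMap K (X i).C0 k =
      algebraMap R0 (X i).C0 (algebraMap A R0 a)) :
    Mdeg hg X (twist hg h0 h1 0) 0 = Multiplicative.ofAdd (nodeNumber hg X : ℤ) := by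
  have h10 := Mdeg_twist_of_ne hg h0 h1 X 1 0 (by decide) hs haway
  rw [finrank_nodes_eq hg X hKA] at h10
  have hmul : Mdeg hg X (twist hg h0 h1 0) 0 * Mdeg hg X (twist hg h0 h1 1) 0 = 1 := by
    rw [← Pi.mul_apply, ← map_mul, twist_mul hg h0 h1, map_one]
    rfl
  rw [h10] at hmul
  have h3 : Mdeg hg X (twist hg h0 h1 0) 0 =
      (Multiplicative.ofAdd (-(nodeNumber hg X : ℤ)))⁻¹ := eq_inv_of_mul_eq_one_left hmul
  rw [h3, ← ofAdd_neg, neg_neg]

end Comp

end Fermat.Agent.MAZ.CuspJ0_20.Twist
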