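/-
MAZ, brick CUSP' (row U7 K3-ASM, helper20), file 4: **HUB FORM OF THE VERTICAL TWIST**.

`c0 : TwoChart W B0 B1 B01` the hub, `O` a `W`-algebra (a DVR with uniformiser `π`), `L` an
`O`-algebra, flat over `O`, in which `π` is a unit (the fraction field),
`hg : NodalGood (c0.baseChange O) π (Fin 2)`, `X i` the two components,
`h0 : NodeReg0 hg`, `h1 : NodeReg1 hg` (thickness-one regularity at the nodes).

* `flat_left`            : `L ⊗[W] B` is flat over `O ⊗[W] B`;
* `map_twist_eq_one`     : `PicX.map c0 O L (twist hg h0 h1 i) = 1`;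
* **`exists_twist`**     : `∃ T : PicX c0 O, PicX.map c0 O L T = 1 ∧ Mdeg T = (ν, -ν)`, `ν > 0`;
* **`pow_mem_J0L`**      : a class `x` over `O` of multidegree `(a, -a)` has `(x_L) ^ ν ∈ J⁰(L)`;
* **`pow_div_mem_J0L`**  (CUSP') : for classes `y0`, `y1` of multidegrees `-e_0`, `-e_1`,
  `(y0_L / y1_L) ^ ν ∈ J⁰(L)`.
-/
import Mathlib
import Fermat.Agent.MAZ.CuspJ0_20.TwistDeg
import Fermat.Agent.T1.RedIface75

set_option autoImplicit false
set_option linter.style.haveILetI false
set_option linter.unusedSectionVars false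

universe u

open TensorProduct

namespace Fermat.Agent.MAZ.CuspJ0_20.Hub

open Fermat.Agent.Jac Fermat.Agent.Jac.LineOps39 Fermat.Agent.Jac.JSmooth85Alg
  Fermat.Agent.Jac.JGroup85Pic Fermat.Agent.Jac.BaseChange75 Fermat.Agent.T1B.RedN3
  Fermat.Agent.T1B.Bal60 Fermat.Agent.T1.RedIface75 Fermat.Agent.MAZ.CuspJ0_20.Twist
open scoped Fermat.Agent.Jac.BaseChange75

section Flat

variable (W O L B : Type u) [CommRing W] [CommRing O] [CommRing L] [CommRing B]
  [Algebra W O] [Algebra W L] [Algebra W B] [Algebra O L] [IsScalarTower W O L]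

/-- `L ⊗[W] B` is flat over `O ⊗[W] B` when `L` is flat over `O`. -/
theorem flat_left [Module.Flat O L] : Module.Flat (O ⊗[W] B) (L ⊗[W] B) := by
  haveI : IsScalarTower O L (L ⊗[W] B) := towerLeft' W O L B
  have hp : Algebra.IsPushout O (O ⊗[W] B) L (L ⊗[W] B) :=
    Algebra.IsPushout.symm (isPushout_left W O L B)
  exact Module.Flat.isBaseChange (R := O) (M := L) (S := O ⊗[W] B) (L ⊗[W] B) hp.out

/-- Injectivity of `L ⊗ I → L ⊗ R` for an ideal `I` of `R = O ⊗[W] B`. -/
theorem injective_baseChange_subtype_left [Module.Flat O L] (I : Ideal (O ⊗[W] B)) :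
    Function.Injective ((Submodule.subtype I).baseChange (L ⊗[W] B)) := by
  haveI := flat_left W O L B
  rw [LinearMap.baseChange_eq_ltensor]
  exact Module.Flat.lTensor_preserves_injective_linearMap _ Subtype.val_injective

theorem isUnit_algebraMap_left {π : O} (hπ : IsUnit (algebraMap O L π)) :
    IsUnit (algebraMap (O ⊗[W] B) (L ⊗[W] B) (algebraMap O (O ⊗[W] B) π)) := by
  haveI : IsScalarTower O L (L ⊗[W] B) := towerLeft' W O L B
  rw [← IsScalarTower.algebraMap_apply O (O ⊗[W] B) (L ⊗[W] B),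
    IsScalarTower.algebraMap_apply O L (L ⊗[W] B)]
  exact hπ.map _

end Flat

variable {W B0 B1 B01 : Type u} [CommRing W] [CommRing B0] [CommRing B1] [CommRing B01]
  [Algebra W B0] [Algebra W B1] [Algebra W B01] [Algebra B0 B01] [Algebra B1 B01]
  [IsScalarTower W B0 B01] [IsScalarTower W B1 B01]
  (c0 : TwoChart W B0 B1 B01)
  (O : Type u) [CommRing O] [Algebra W O]
  (L : Type u) [CommRing L] [Algebra W L] [Algebra O L] [IsScalarTower W O L]
  {π : O} (hg : NodalGood (c0.baseChange O) π (Fin 2))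
  (h0 : NodeReg0 hg) (h1 : NodeReg1 hg)

/-- **The vertical twist is trivial on the generic fibre.** -/
theorem map_twist_eq_one [Module.Flat O L] (hπ : IsUnit (algebraMap O L π)) (i : Fin 2) :
    PicX.map c0 O L (twist hg h0 h1 i) = 1 :=
  bc_twist_eq_one hg h0 h1 (square_comm W O L B0 B01) (square_comm W O L B1 B01)
    (c0.baseChange L) i (isUnit_algebraMap_left W O L B0 hπ) (isUnit_algebraMap_left W O L B1 hπ)
    (injective_baseChange_subtype_left W O L B0 _) (injective_baseChange_subtype_left W O L B1 _)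

variable {K : Type u} [Field K] (X : ∀ i, Comp (c0.baseChange O) (hg.P0 i) (hg.P1 i) K)

/-- The hypotheses on the components needed to compute the multidegree of the twist. -/
structure CompHyp : Prop where
  hs : ∀ i, algebraMap (O ⊗[W] B1) (X i).C1 (c0.baseChange O).s = (X i).chart.s
  haway : AwayNodes hg
  hnode : hg.P0 0 ⊔ hg.P0 1 ≠ ⊤
  hKA : ∀ k : K, ∃ a : O, ∀ i, algebraMap K (X i).C0 k =
    algebraMap (O ⊗[W] B0) (X i).C0 (algebraMap O (O ⊗[W] B0) a)

variable {c0 O hg X}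

include h0 h1 in
/-- **EXISTENCE OF THE TWIST**: a class over `O`, trivial on the generic fibre, of multidegree
`(ν, -ν)` with `ν > 0` the number of nodes. -/
theorem exists_twist [Module.Flat O L] (hπ : IsUnit (algebraMap O L π)) (H : CompHyp c0 O hg X) :
    0 < nodeNumber hg X ∧ ∃ T : PicX c0 O, PicX.map c0 O L T = 1 ∧
      Mdeg hg X T 0 = Multiplicative.ofAdd (nodeNumber hg X : ℤ) ∧
      Mdeg hg X T 1 = Multiplicative.ofAdd (-(nodeNumber hg X : ℤ)) :=
  ⟨nodeNumber_pos hg h0 X H.hnode, twist hg h0 h1 0, map_twist_eq_one c0 O L hg h0 h1 hπ 0,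
    Mdeg_twist_zero_zero hg h0 h1 X (H.hs 0) H.haway H.hKA,
    Mdeg_twist_zero_one hg h0 h1 X (H.hs 1) H.haway⟩

include h0 h1 in
/-- **A class of multidegree `(a, -a)` has its `ν`-th power in `J⁰(L)`.** -/
theorem pow_mem_J0L [Module.Flat O L] (hπ : IsUnit (algebraMap O L π)) (H : CompHyp c0 O hg X)
    (x : PicX c0 O) (a : ℤ) (hx0 : Mdeg hg X x 0 = Multiplicative.ofAdd a)
    (hx1 : Mdeg hg X x 1 = Multiplicative.ofAdd (-a)) :
    PicX.map c0 O L x ^ nodeNumber hg X ∈ J0L c0 O L (P00 hg X) := by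
  obtain ⟨-, T, hT, hT0, hT1⟩ := exists_twist L h0 h1 hπ H
  refine ⟨x ^ nodeNumber hg X * T ^ (-a), ?_, ?_⟩
  · rw [SetLike.mem_coe, P00_eq_ker, MonoidHom.mem_ker]
    funext i
    rw [map_mul, map_pow, map_zpow, Pi.mul_apply, Pi.pow_apply, Pi.pow_apply, Pi.one_apply]
    revert i
    rw [Fin.forall_fin_two]
    constructor
    · rw [hx0, hT0, ← ofAdd_nsmul, ← ofAdd_zsmul, ← ofAdd_add, ← ofAdd_zero]
      congr 1
      simp only [smul_eq_mul, nsmul_eq_mul]
      ring
    · rw [hx1, hT1, ← ofAdd_nsmul, ← ofAdd_zsmul, ← ofAdd_add, ← ofAdd_zero]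
      congr 1
      simp only [smul_eq_mul, nsmul_eq_mul]
      ring
  · rw [map_mul, map_pow, map_zpow, hT, one_zpow, mul_one]

include h0 h1 in
/-- **CUSP'**: for two classes over `O` of multidegrees `-e_0`, `-e_1` (e.g. the classes of two
sections with smooth reduction on the two components), `(y0_L / y1_L) ^ ν ∈ J⁰(L)`. -/
theorem pow_div_mem_J0L [Module.Flat O L] (hπ : IsUnit (algebraMap O L π))
    (H : CompHyp c0 O hg X) (y0 y1 : PicX c0 O)
    (hy0 : Mdeg hg X y0 =
      (Pi.mulSingle (0 : Fin 2) (Multiplicative.ofAdd (-1 : ℤ)) : Fin 2 → Multiplicative ℤ))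
    (hy1 : Mdeg hg X y1 =
      (Pi.mulSingle (1 : Fin 2) (Multiplicative.ofAdd (-1 : ℤ)) : Fin 2 → Multiplicative ℤ)) :
    (PicX.map c0 O L y0 / PicX.map c0 O L y1) ^ nodeNumber hg X ∈ J0L c0 O L (P00 hg X) := by
  have h := pow_mem_J0L L h0 h1 hπ H (y0 / y1) (-1)
    (by rw [map_div, Pi.div_apply, hy0, hy1, Pi.mulSingle_eq_same,
          Pi.mulSingle_eq_of_ne (by decide), div_one])
    (by rw [map_div, Pi.div_apply, hy0, hy1, Pi.mulSingle_eq_same,
          Pi.mulSingle_eq_of_ne (by decide), one_div, ← ofAdd_neg])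
  rwa [map_div] at h

end Fermat.Agent.MAZ.CuspJ0_20.Hub
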