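/-
MAZ, brick CUSP (T) (row 763, helper20), file 6: **`CompHyp` FOR THE CANONICAL COMPONENTS
`Bal60.quotComp`** (the components `R_j ⧸ P_j i` over a field `K = A ⧸ (p)` used by every concrete
instance: `NodalCoh30.compOfEquiv`, `compSelf`, `compBaseChange`, `compBaseChangeRes`,
`compNumField` all unfold to `quotComp`).

* `quotComp_hs`   : `algebraMap R1 (quotComp …).C1 c.s = (quotComp …).chart.s`  (`rfl`);
* `quotComp_hKA`  : the constants of the components come from `A` (one lift for all `i`);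
* `compHyp_quotComp` : `Hub.CompHyp c0 O hg (fun i => quotComp hg i K …)` from `AwayNodes hg` and
  `hg.P0 0 ⊔ hg.P0 1 ≠ ⊤`.
-/
import Mathlib
import Fermat.Agent.MAZ.CuspJ0_20.Hub
import Fermat.Agent.T1B.Bal60.Quot

set_option autoImplicit false
set_option linter.style.haveILetI false
set_option linter.unusedSectionVars false

universe u

open TensorProduct Polynomial

noncomputable section

namespace Fermat.Agent.MAZ.CuspJ0_20.CompQuot

open Fermat.Agent.Jac Fermat.Agent.Jac.BaseChange75 Fermat.Agent.T1B.RedN3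
  Fermat.Agent.T1B.Bal60 Fermat.Agent.MAZ.CuspJ0_20.Twist Fermat.Agent.MAZ.CuspJ0_20.Hub
open scoped Fermat.Agent.Jac.BaseChange75

section Quot

variable {A R0 R1 R01 : Type u} [CommRing A] [CommRing R0] [CommRing R1] [CommRing R01]
  [Algebra A R0] [Algebra A R1] [Algebra A R01] [Algebra R0 R01] [Algebra R1 R01]
  [IsScalarTower A R0 R01] [IsScalarTower A R1 R01]
  {c : TwoChart A R0 R1 R01} {p : A} {ι : Type} (hg : NodalGood c p ι)
  (K : Type u) [Field K] [Algebra A K]
  (hK : Function.Surjective (algebraMap A K))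
  (hKp : RingHom.ker (algebraMap A K) = Ideal.span {p})
  (fin0 : Module.Finite A[X] (Module.AEval A R0 c.t))
  (fin1 : Module.Finite A[X] (Module.AEval A R1 c.s))

/-- The coordinate `s` of the component is the image of `s`. -/
theorem quotComp_hs (i : ι)
    (htr0 : ∀ q : A[X], aeval c.t q ∈ hg.P0 i → (C p : A[X]) ∣ q)
    (htr1 : ∀ q : A[X], aeval c.s q ∈ hg.P1 i → (C p : A[X]) ∣ q) :
    algebraMap R1 (quotComp hg i K hK hKp fin0 fin1 htr0 htr1).C1 c.s =
      (quotComp hg i K hK hKp fin0 fin1 htr0 htr1).chart.s := rfl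

/-- The coordinate `t` of the component is the image of `t`. -/
theorem quotComp_ht (i : ι)
    (htr0 : ∀ q : A[X], aeval c.t q ∈ hg.P0 i → (C p : A[X]) ∣ q)
    (htr1 : ∀ q : A[X], aeval c.s q ∈ hg.P1 i → (C p : A[X]) ∣ q) :
    algebraMap R0 (quotComp hg i K hK hKp fin0 fin1 htr0 htr1).C0 c.t =
      (quotComp hg i K hK hKp fin0 fin1 htr0 htr1).chart.t := rfl

/-- The constants of the component come from `A`. -/
theorem quotComp_algebraMap (i : ι)
    (htr0 : ∀ q : A[X], aeval c.t q ∈ hg.P0 i → (C p : A[X]) ∣ q)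
    (htr1 : ∀ q : A[X], aeval c.s q ∈ hg.P1 i → (C p : A[X]) ∣ q) (a : A) :
    algebraMap K (quotComp hg i K hK hKp fin0 fin1 htr0 htr1).C0 (algebraMap A K a) =
      algebraMap R0 (quotComp hg i K hK hKp fin0 fin1 htr0 htr1).C0 (algebraMap A R0 a) := by
  have h := algOfSurjective_algebraMap hK (R0 ⧸ hg.P0 i)
    (ker_le_ker_quot hKp (hg.P0 i) (hg.mem0 i)) a
  rw [IsScalarTower.algebraMap_apply A R0 (R0 ⧸ hg.P0 i)] at h
  exact h

end Quot

section Hub

variable {W B0 B1 B01 : Type u} [CommRing W] [CommRing B0] [CommRing B1] [CommRing B01]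
  [Algebra W B0] [Algebra W B1] [Algebra W B01] [Algebra B0 B01] [Algebra B1 B01]
  [IsScalarTower W B0 B01] [IsScalarTower W B1 B01]
  (c0 : TwoChart W B0 B1 B01)
  (O : Type u) [CommRing O] [Algebra W O]
  {π : O} (hg : NodalGood (c0.baseChange O) π (Fin 2))
  (K : Type u) [Field K] [Algebra O K]
  (hK : Function.Surjective (algebraMap O K))
  (hKp : RingHom.ker (algebraMap O K) = Ideal.span {π})
  (fin0 : Module.Finite O[X] (Module.AEval O (O ⊗[W] B0) (c0.baseChange O).t))
  (fin1 : Module.Finite O[X] (Module.AEval O (O ⊗[W] B1) (c0.baseChange O).s))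
  (htr0 : ∀ i, ∀ q : O[X], aeval (c0.baseChange O).t q ∈ hg.P0 i → (C π : O[X]) ∣ q)
  (htr1 : ∀ i, ∀ q : O[X], aeval (c0.baseChange O).s q ∈ hg.P1 i → (C π : O[X]) ∣ q)

/-- **`CompHyp` for the canonical components.** -/
theorem compHyp_quotComp (haway : AwayNodes hg) (hnode : hg.P0 0 ⊔ hg.P0 1 ≠ ⊤) :
    CompHyp c0 O hg (fun i => quotComp hg i K hK hKp fin0 fin1 (htr0 i) (htr1 i)) where
  hs := fun i => quotComp_hs hg K hK hKp fin0 fin1 i (htr0 i) (htr1 i)
  haway := haway
  hnode := hnode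
  hKA := fun k => by
    obtain ⟨a, rfl⟩ := hK k
    exact ⟨a, fun i => quotComp_algebraMap hg K hK hKp fin0 fin1 i (htr0 i) (htr1 i) a⟩

end Hub

end Fermat.Agent.MAZ.CuspJ0_20.CompQuot
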