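/-
MAZ, brick CUSP (T) (row 763, helper20), file 7: **TRANSPORT OF THE TWIST HYPOTHESES ALONG
ISOMORPHISMS OF TWO-CHART RINGS** (`NodalFacts23.NodalGood.of_equiv`), and the maximal-ideal forms of
`AwayNodes`.

* `awayNodes_of_forall_maximal` : `s ∉ 𝔪` for every maximal `𝔪 ⊇ P1 0 ⊔ P1 1` ⟹ `AwayNodes hg`;
* `nodeReg0_of_equiv`, `nodeReg1_of_equiv` : `NodeReg0/1 hg ⟹ NodeReg0/1 (NodalGood.of_equiv … hg)`;
* `awayNodes_of_equiv` : `AwayNodes hg ⟹ AwayNodes (NodalGood.of_equiv … hg)` (`e1 c.s = c'.s`);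
* `sup_P0_ne_top_of_equiv` : a node on chart `0` transports.
-/
import Mathlib
import Fermat.Agent.MAZ.CuspJ0_20.TwistDeg
import Fermat.Agent.T1B.NodalFacts23.Good

set_option autoImplicit false
set_option linter.style.haveILetI false
set_option linter.unusedSectionVars false

universe u

namespace Fermat.Agent.MAZ.CuspJ0_20.EquivReg

open Fermat.Agent.Jac Fermat.Agent.T1B.RedN3 Fermat.Agent.T1B.NodalFacts23
  Fermat.Agent.MAZ.CuspJ0_20.Twist

section Away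

variable {A R0 R1 R01 : Type u} [CommRing A] [CommRing R0] [CommRing R1] [CommRing R01]
  [Algebra A R0] [Algebra A R1] [Algebra A R01] [Algebra R0 R01] [Algebra R1 R01]
  [IsScalarTower A R0 R01] [IsScalarTower A R1 R01]
  {c : TwoChart A R0 R1 R01} {p : A} (hg : NodalGood c p (Fin 2))

/-- **No node at infinity, maximal-ideal form.** -/
theorem awayNodes_of_forall_maximal
    (h : ∀ 𝔪 : Ideal R1, 𝔪.IsMaximal → hg.P1 0 ≤ 𝔪 → hg.P1 1 ≤ 𝔪 → c.s ∉ 𝔪) : AwayNodes hg := by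
  have htop : (hg.P1 0 ⊔ hg.P1 1) ⊔ Ideal.span {c.s} = ⊤ := by
    by_contra hne
    obtain ⟨𝔪, h𝔪, hle⟩ := Ideal.exists_le_maximal _ hne
    exact h 𝔪 h𝔪 (le_trans (le_trans le_sup_left le_sup_left) hle)
      (le_trans (le_trans le_sup_right le_sup_left) hle)
      (hle (Ideal.mem_sup_right (Ideal.subset_span rfl)))
  have h1 : (1 : R1) ∈ (hg.P1 0 ⊔ hg.P1 1) ⊔ Ideal.span {c.s} := by
    rw [htop]
    exact Submodule.mem_top
  obtain ⟨a, ha, b, hb, hab⟩ := Submodule.mem_sup.1 h1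
  obtain ⟨w, rfl⟩ := Ideal.mem_span_singleton'.1 hb
  refine ⟨-w, ?_⟩
  have : 1 + c.s * -w = a := by
    rw [← hab]
    ring
  rw [this]
  exact ha

end Away

section Transport

variable {A R0 R1 R01 R0' R1' R01' : Type u} [CommRing A]
  [CommRing R0] [CommRing R1] [CommRing R01] [Algebra A R0] [Algebra A R1] [Algebra A R01]
  [Algebra R0 R01] [Algebra R1 R01] [IsScalarTower A R0 R01] [IsScalarTower A R1 R01]
  [CommRing R0'] [CommRing R1'] [CommRing R01'] [Algebra A R0'] [Algebra A R1'] [Algebra A R01']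
  [Algebra R0' R01'] [Algebra R1' R01'] [IsScalarTower A R0' R01'] [IsScalarTower A R1' R01']
  (c : TwoChart A R0 R1 R01) (c' : TwoChart A R0' R1' R01')
  (e0 : R0 ≃ₐ[A] R0') (e1 : R1 ≃ₐ[A] R1') (e01 : R01 ≃ₐ[A] R01')
  (h0 : ∀ x : R0, e01 (algebraMap R0 R01 x) = algebraMap R0' R01' (e0 x))
  (h1 : ∀ x : R1, e01 (algebraMap R1 R01 x) = algebraMap R1' R01' (e1 x))
  {p : A} (hg : NodalGood c' p (Fin 2))

theorem mem_P0_of_equiv_iff (i : Fin 2) (x : R0) :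
    x ∈ (NodalGood.of_equiv c c' e0 e1 e01 h0 h1 hg).P0 i ↔ e0 x ∈ hg.P0 i := Iff.rfl

theorem mem_P1_of_equiv_iff (i : Fin 2) (x : R1) :
    x ∈ (NodalGood.of_equiv c c' e0 e1 e01 h0 h1 hg).P1 i ↔ e1 x ∈ hg.P1 i := Iff.rfl

/-- **Thickness-one regularity on chart `0` transports.** -/
theorem nodeReg0_of_equiv (hr : NodeReg0 hg) :
    NodeReg0 (NodalGood.of_equiv c c' e0 e1 e01 h0 h1 hg) := by
  intro 𝔪 h𝔪 hP0 hP1
  haveI := h𝔪
  have h𝔪' : (𝔪.comap (e0.symm : R0' →+* R0)).IsMaximal :=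
    Ideal.comap_isMaximal_of_surjective (e0.symm : R0' →+* R0) e0.symm.surjective
  have hle : ∀ i, (NodalGood.of_equiv c c' e0 e1 e01 h0 h1 hg).P0 i ≤ 𝔪 →
      hg.P0 i ≤ 𝔪.comap (e0.symm : R0' →+* R0) := by
    intro i hi z hz
    rw [Ideal.mem_comap]
    apply hi
    rw [mem_P0_of_equiv_iff]
    have : e0 ((e0.symm : R0' →+* R0) z) = z := e0.apply_symm_apply z
    rw [this]
    exact hz
  obtain ⟨x, hx, y, hy, e, he, hxy⟩ := hr _ h𝔪' (hle 0 hP0) (hle 1 hP1)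
  refine ⟨e0.symm x, ?_, e0.symm y, ?_, e0.symm e, he, ?_⟩
  · rw [mem_P0_of_equiv_iff, e0.apply_symm_apply]
    exact hx
  · rw [mem_P0_of_equiv_iff, e0.apply_symm_apply]
    exact hy
  · rw [← map_mul, hxy, map_mul, e0.symm.commutes]

/-- **Thickness-one regularity on chart `1` transports.** -/
theorem nodeReg1_of_equiv (hr : NodeReg1 hg) :
    NodeReg1 (NodalGood.of_equiv c c' e0 e1 e01 h0 h1 hg) := by
  intro 𝔪 h𝔪 hP0 hP1
  haveI := h𝔪
  have h𝔪' : (𝔪.comap (e1.symm : R1' →+* R1)).IsMaximal :=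
    Ideal.comap_isMaximal_of_surjective (e1.symm : R1' →+* R1) e1.symm.surjective
  have hle : ∀ i, (NodalGood.of_equiv c c' e0 e1 e01 h0 h1 hg).P1 i ≤ 𝔪 →
      hg.P1 i ≤ 𝔪.comap (e1.symm : R1' →+* R1) := by
    intro i hi z hz
    rw [Ideal.mem_comap]
    apply hi
    rw [mem_P1_of_equiv_iff]
    have : e1 ((e1.symm : R1' →+* R1) z) = z := e1.apply_symm_apply z
    rw [this]
    exact hz
  obtain ⟨x, hx, y, hy, e, he, hxy⟩ := hr _ h𝔪' (hle 0 hP0) (hle 1 hP1)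
  refine ⟨e1.symm x, ?_, e1.symm y, ?_, e1.symm e, he, ?_⟩
  · rw [mem_P1_of_equiv_iff, e1.apply_symm_apply]
    exact hx
  · rw [mem_P1_of_equiv_iff, e1.apply_symm_apply]
    exact hy
  · rw [← map_mul, hxy, map_mul, e1.symm.commutes]

/-- **No node at infinity transports** (when `e1` matches the coordinates `s`). -/
theorem awayNodes_of_equiv (hs : e1 c.s = c'.s) (ha : AwayNodes hg) :
    AwayNodes (NodalGood.of_equiv c c' e0 e1 e01 h0 h1 hg) := by
  obtain ⟨w, hw⟩ := ha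
  obtain ⟨a, ha, b, hb, hab⟩ := Submodule.mem_sup.1 hw
  refine ⟨e1.symm w, ?_⟩
  have h1' : (1 : R1) + c.s * e1.symm w = e1.symm a + e1.symm b := by
    apply e1.injective
    rw [map_add, map_add, map_mul, map_one, hs, e1.apply_symm_apply, e1.apply_symm_apply,
      e1.apply_symm_apply, hab]
  rw [h1']
  refine Submodule.add_mem_sup ?_ ?_
  · rw [mem_P1_of_equiv_iff, e1.apply_symm_apply]
    exact ha
  · rw [mem_P1_of_equiv_iff, e1.apply_symm_apply]
    exact hb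

/-- **A node on chart `0` transports.** -/
theorem sup_P0_ne_top_of_equiv (hn : hg.P0 0 ⊔ hg.P0 1 ≠ ⊤) :
    (NodalGood.of_equiv c c' e0 e1 e01 h0 h1 hg).P0 0 ⊔
      (NodalGood.of_equiv c c' e0 e1 e01 h0 h1 hg).P0 1 ≠ ⊤ := by
  intro htop
  apply hn
  rw [Ideal.eq_top_iff_one]
  have h1mem : (1 : R0) ∈ (NodalGood.of_equiv c c' e0 e1 e01 h0 h1 hg).P0 0 ⊔
      (NodalGood.of_equiv c c' e0 e1 e01 h0 h1 hg).P0 1 := by
    rw [htop]
    exact Submodule.mem_top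
  obtain ⟨x, hx, y, hy, hxy⟩ := Submodule.mem_sup.1 h1mem
  have : (1 : R0') = e0 x + e0 y := by rw [← map_add, hxy, map_one]
  rw [this]
  exact Submodule.add_mem_sup hx hy

end Transport

end Fermat.Agent.MAZ.CuspJ0_20.EquivReg
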