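/-
MAZ, brick CUSP'' part (c) (row 763, helper20), file 5: **`n₀ • (ρ₁ - ρ₂) ∈ J0top`**, the hypothesis
`hc` of `MAZ/K3Asm7/LocalExt.k3_local_ext`, from the vertical twist of ONE nodal model.

* Generic three-ring form (`O → O' → L`; `O` carries the thickness-one nodal model, `O'` is the level
  at which the family `P'` lives, `L` the top field):
  `exists_mem_map_eq`  : `∃ x' ∈ P', x'_L = ((y0)_{O'L} / (y1)_{O'L}) ^ ν`;
  `exists_mem_map_eq_self` : the case `O = O'`.
* `flat_of_injective`, `flat_of_valuationRing` : a field containing a Dedekind domain / a valuation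
  ring is flat over it.
* **`exists_twist_transfer`** : the twist class pushed along a base extension `O → O'` with the same
  special fibre (helper53's `NodalBC53.transfer` / `compHub`): `T' : PicX c0 O'`, trivial over `L`,
  `Mdeg (transfer …) (compHub …) T' = (ν, -ν)`.
* **`exists_twist_level`** (the input `(T)` of `MAZ/K3Asm7/NoSection.leafK3_of_local_tw`, raw form):
  `E : NLevel p K`, number-field-level data over `O_L = Wb p E.L` (`πL ≠ 0`, `hgL`, `XL`,
  `NodeReg0/1 hgL`, `CompHyp c0 (Wb p E.L) hgL XL`) ⊢ `∃ ν > 0, ∃ T : PicO c0 E, bcO c0 E T = 1 ∧`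
  `Mdeg (transfer …) (compHub …) T 0 = ofAdd ν ∧ Mdeg … T 1 = ofAdd (-ν)`.
-/
import Mathlib
import Fermat.Agent.MAZ.CuspJ0_20.Hub
import Fermat.Agent.T1B.Local66.Union
import Fermat.Agent.T1B.NodalBC53.Level
import Fermat.Agent.T1B.NodalBC53.Bal

set_option autoImplicit false
set_option linter.style.haveILetI false
set_option linter.unusedSectionVars false
set_option synthInstance.maxHeartbeats 400000
set_option maxHeartbeats 1000000

universe u

open TensorProduct

noncomputable section

namespace Fermat.Agent.MAZ.CuspJ0_20.Top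

open Fermat.Agent.Jac Fermat.Agent.Jac.BaseChange75 Fermat.Agent.T1B.RedN3
  Fermat.Agent.T1B.Bal60 Fermat.Agent.T1.RedIface75 Fermat.Agent.T1.Red11
  Fermat.Agent.MAZ.CuspJ0_20.Twist Fermat.Agent.MAZ.CuspJ0_20.Hub
open scoped Fermat.Agent.Jac.BaseChange75

/-! ### Generic three-ring form -/

section Generic

variable {W B0 B1 B01 : Type u} [CommRing W] [CommRing B0] [CommRing B1] [CommRing B01]
  [Algebra W B0] [Algebra W B1] [Algebra W B01] [Algebra B0 B01] [Algebra B1 B01]
  [IsScalarTower W B0 B01] [IsScalarTower W B1 B01]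
  {c0 : TwoChart W B0 B1 B01}
  {O : Type u} [CommRing O] [Algebra W O]
  {π : O} {hg : NodalGood (c0.baseChange O) π (Fin 2)}
  (h0 : NodeReg0 hg) (h1 : NodeReg1 hg)
  {k : Type u} [Field k] {X : ∀ i, Comp (c0.baseChange O) (hg.P0 i) (hg.P1 i) k}

include h0 h1 in
/-- **Three-ring form.** -/
theorem exists_mem_map_eq
    (O' : Type u) [CommRing O'] [Algebra W O'] [Algebra O O'] [IsScalarTower W O O']
    (L : Type u) [CommRing L] [Algebra W L] [Algebra O L] [IsScalarTower W O L]
    [Algebra O' L] [IsScalarTower W O' L] [IsScalarTower O O' L]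
    [Module.Flat O L] (hπ : IsUnit (algebraMap O L π)) (H : CompHyp c0 O hg X)
    (P' : Subgroup (PicX c0 O')) (hP : ∀ x ∈ P00 hg X, PicX.map c0 O O' x ∈ P')
    (y0 y1 : PicX c0 O)
    (hy0 : Mdeg hg X y0 =
      (Pi.mulSingle (0 : Fin 2) (Multiplicative.ofAdd (-1 : ℤ)) : Fin 2 → Multiplicative ℤ))
    (hy1 : Mdeg hg X y1 =
      (Pi.mulSingle (1 : Fin 2) (Multiplicative.ofAdd (-1 : ℤ)) : Fin 2 → Multiplicative ℤ)) :
    ∃ x' ∈ P', PicX.map c0 O' L x' =
      (PicX.map c0 O' L (PicX.map c0 O O' y0) / PicX.map c0 O' L (PicX.map c0 O O' y1)) ^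
        nodeNumber hg X := by
  obtain ⟨x, hx, hxe⟩ := pow_div_mem_J0L L h0 h1 hπ H y0 y1 hy0 hy1
  refine ⟨PicX.map c0 O O' x, hP x hx, ?_⟩
  rw [PicX.map_comp c0 O O' L, PicX.map_comp c0 O O' L, PicX.map_comp c0 O O' L]
  exact hxe

include h0 h1 in
/-- **Two-ring form** (`O = O'`). -/
theorem exists_mem_map_eq_self
    (L : Type u) [CommRing L] [Algebra W L] [Algebra O L] [IsScalarTower W O L]
    [Module.Flat O L] (hπ : IsUnit (algebraMap O L π)) (H : CompHyp c0 O hg X)
    (P' : Subgroup (PicX c0 O)) (hP : P00 hg X ≤ P')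
    (y0 y1 : PicX c0 O)
    (hy0 : Mdeg hg X y0 =
      (Pi.mulSingle (0 : Fin 2) (Multiplicative.ofAdd (-1 : ℤ)) : Fin 2 → Multiplicative ℤ))
    (hy1 : Mdeg hg X y1 =
      (Pi.mulSingle (1 : Fin 2) (Multiplicative.ofAdd (-1 : ℤ)) : Fin 2 → Multiplicative ℤ)) :
    ∃ x' ∈ P', PicX.map c0 O L x' =
      (PicX.map c0 O L y0 / PicX.map c0 O L y1) ^ nodeNumber hg X := by
  obtain ⟨x, hx, hxe⟩ := pow_div_mem_J0L L h0 h1 hπ H y0 y1 hy0 hy1
  exact ⟨x, hP hx, hxe⟩

end Generic

/-- A field containing a Dedekind domain (e.g. a DVR) is flat over it. -/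
theorem flat_of_injective (R : Type*) [CommRing R] [IsDedekindDomain R]
    (F : Type*) [Field F] [Algebra R F] (h : Function.Injective (algebraMap R F)) :
    Module.Flat R F := by
  haveI : Module.IsTorsionFree R F := by
    refine ⟨fun r hr x y hxy => ?_⟩
    simp only [Algebra.smul_def] at hxy
    have hne : algebraMap R F r ≠ 0 := by
      intro h0
      exact (isRegular_iff_ne_zero.1 hr) (h (h0.trans (map_zero _).symm))
    exact mul_left_cancel₀ hne hxy
  infer_instance

/-- A field containing a valuation ring is flat over it. -/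
theorem flat_of_valuationRing (R : Type*) [CommRing R] [IsDomain R] [ValuationRing R]
    (F : Type*) [Field F] [Algebra R F] (h : Function.Injective (algebraMap R F)) :
    Module.Flat R F := by
  rw [Module.Flat.flat_iff_torsion_eq_bot_of_isBezout,
    ← Submodule.isTorsionFree_iff_torsion_eq_bot]
  refine ⟨fun r hr x y hxy => ?_⟩
  simp only [Algebra.smul_def] at hxy
  have hne : algebraMap R F r ≠ 0 := by
    intro h0
    exact (isRegular_iff_ne_zero.1 hr) (h (h0.trans (map_zero _).symm))
  exact mul_left_cancel₀ hne hxy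

/-! ### The twist pushed along a base extension with the same special fibre -/

section Transfer

open Fermat.Agent.T1B.NodalBC53.Fibre Fermat.Agent.T1B.NodalBC53.Transfer
  Fermat.Agent.T1B.NodalBC53.Bal

variable {W B0 B1 B01 : Type u} [CommRing W] [CommRing B0] [CommRing B1] [CommRing B01]
  [Algebra W B0] [Algebra W B1] [Algebra W B01] [Algebra B0 B01] [Algebra B1 B01]
  [IsScalarTower W B0 B01] [IsScalarTower W B1 B01]
  (c0 : TwoChart W B0 B1 B01)
  {O O' : Type u} [CommRing O] [CommRing O'] [Algebra W O] [Algebra W O'] [Algebra O O']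
  [IsScalarTower W O O']
  [Module.Flat W B0] [Module.Flat W B1] [Module.Flat W B01]
  {π : O}
  (h : SameFibre (algebraMap O O') π)
  (hreg : ∀ z : O', algebraMap O O' π * z = 0 → z = 0)
  (hg : NodalGood (c0.baseChange O) π (Fin 2))
  (h0 : NodeReg0 hg) (h1 : NodeReg1 hg)
  {k : Type u} [Field k] (X : ∀ i, Comp (c0.baseChange O) (hg.P0 i) (hg.P1 i) k)

include h0 h1 in
/-- **The twist over `O'`**: the image in `Pic X_{O'}` of the vertical twist over `O` is trivial over
`L` and has multidegree `(ν, -ν)` for the transferred nodal data. -/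
theorem exists_twist_transfer
    (L : Type u) [CommRing L] [Algebra W L] [Algebra O L] [IsScalarTower W O L]
    [Algebra O' L] [IsScalarTower W O' L] [IsScalarTower O O' L]
    [Module.Flat O L] (hπ : IsUnit (algebraMap O L π)) (H : CompHyp c0 O hg X) :
    0 < nodeNumber hg X ∧ ∃ T : PicX c0 O', PicX.map c0 O' L T = 1 ∧
      Mdeg (transfer c0 h hreg hg) (compHub c0 h hreg hg X) T 0 =
        Multiplicative.ofAdd (nodeNumber hg X : ℤ) ∧
      Mdeg (transfer c0 h hreg hg) (compHub c0 h hreg hg X) T 1 =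
        Multiplicative.ofAdd (-(nodeNumber hg X : ℤ)) := by
  obtain ⟨hν, T, hT, hT0, hT1⟩ := exists_twist L h0 h1 hπ H
  refine ⟨hν, PicX.map c0 O O' T, ?_, ?_, ?_⟩
  · rw [PicX.map_comp c0 O O' L]
    exact hT
  · rw [Mdeg_map_transfer]
    exact hT0
  · rw [Mdeg_map_transfer]
    exact hT1

end Transfer

/-! ### The level form -/

section Level

open Fermat.Agent.TW.B5.Iface Fermat.Agent.RED.Interface4 Fermat.Agent.T1.HubInst98
open Fermat.Agent.T1.IntSub47
open Fermat.Agent.T1B.Local66.LocalBase Fermat.Agent.T1B.Local66.Union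
open Fermat.Agent.T1B.NodalBC53.Fibre Fermat.Agent.T1B.NodalBC53.Transfer
  Fermat.Agent.T1B.NodalBC53.Bal Fermat.Agent.T1B.NodalBC53.Level

variable {p : ℕ} [Fact p.Prime] {K : IntermediateField ℚ Qbar}
  {B0 B1 B01 : Type} [CommRing B0] [CommRing B1] [CommRing B01]
  [Algebra (Wb p K) B0] [Algebra (Wb p K) B1] [Algebra (Wb p K) B01] [Algebra B0 B01]
  [Algebra B1 B01] [IsScalarTower (Wb p K) B0 B01] [IsScalarTower (Wb p K) B1 B01]
  [Module.Flat (Wb p K) B0] [Module.Flat (Wb p K) B1] [Module.Flat (Wb p K) B01]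
  (c0 : TwoChart (Wb p K) B0 B1 B01)

/-- **The input `(T)` of `K3Asm7.leafK3_of_local_tw` at the level `E`**, from the thickness-one nodal
model over the NUMBER FIELD level `O_L = Wb p E.L` (which must be unramified over `W` for `h0`, `h1` to
hold): the twist class `T : Pic X_{O_E}` is trivial on the geometric generic fibre and has multidegree
`(ν, -ν)`, `ν > 0`, for the transferred nodal data `transfer … hgL`, `compHub … XL` over `O_E`
(= `NodalBC53.Family.hgO / XO` = `K3Levels77.LevelData.ofNumField`, up to proof irrelevance). -/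
theorem exists_twist_level (E : NLevel p K) (hd : DenseIn p E.L E.E) {πL : Wb p E.L}
    (hπL : πL ≠ 0)
    (hgL : letI := algAK (padicPlace p) E.leL
      NodalGood (c0.baseChange (Wb p E.L)) πL (Fin 2))
    {κ : Type} [Field κ]
    (XL : letI := algAK (padicPlace p) E.leL
      ∀ i, Comp (c0.baseChange (Wb p E.L)) (hgL.P0 i) (hgL.P1 i) κ)
    (h0 : letI := algAK (padicPlace p) E.leL
      NodeReg0 hgL)
    (h1 : letI := algAK (padicPlace p) E.leL
      NodeReg1 hgL)
    (H : letI := algAK (padicPlace p) E.leL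
      CompHyp c0 (Wb p E.L) hgL XL) :
    letI := algAK (padicPlace p) E.leL
    letI := algWO E.levL
    letI := algWO E.lev
    haveI : IsScalarTower (Wb p K) (Wb p E.L) ↥(intSubring p E.E) := tower_W_OL_OE E.leL E.levL
    ∃ ν : ℕ, 0 < ν ∧ ∃ T : PicO c0 E, bcO c0 E T = 1 ∧
      Mdeg (transfer c0 (sameFibre_level E.levL hd hπL) (regular_level E.levL hπL) hgL)
        (compHub c0 (sameFibre_level E.levL hd hπL) (regular_level E.levL hπL) hgL XL) T 0 =
          Multiplicative.ofAdd (ν : ℤ) ∧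
      Mdeg (transfer c0 (sameFibre_level E.levL hd hπL) (regular_level E.levL hπL) hgL)
        (compHub c0 (sameFibre_level E.levL hd hπL) (regular_level E.levL hπL) hgL XL) T 1 =
          Multiplicative.ofAdd (-(ν : ℤ)) := by
  letI := algAK (padicPlace p) E.leL
  letI := algWO E.levL
  letI := algWO E.lev
  letI := algWKbar p K
  letI := algWKbar p E.L
  letI := algOKbar E.E
  haveI : IsScalarTower (Wb p K) (Wb p E.L) ↥(intSubring p E.E) := tower_W_OL_OE E.leL E.levL
  haveI : IsScalarTower (Wb p K) ↥(intSubring p E.E) (Kbar p) := tower_W_O_Kbar E.lev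
  haveI : IsScalarTower (Wb p K) (Wb p E.L) (Kbar p) := IsScalarTower.of_algebraMap_eq' rfl
  haveI : IsScalarTower (Wb p E.L) ↥(intSubring p E.E) (Kbar p) := tower_W_O_Kbar E.levL
  haveI : Module.Flat (Wb p E.L) (Kbar p) :=
    flat_of_valuationRing _ _ (iotaW_injective p E.L)
  have hπ : IsUnit (algebraMap (Wb p E.L) (Kbar p) πL) :=
    IsUnit.mk0 _ fun h => hπL (iotaW_injective p E.L (h.trans (map_zero _).symm))
  obtain ⟨hν, T, hT, hT0, hT1⟩ := exists_twist_transfer c0
    (sameFibre_level E.levL hd hπL) (regular_level E.levL hπL) hgL h0 h1 XL (Kbar p) hπ H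
  exact ⟨_, hν, T, hT, hT0, hT1⟩

end Level

end Fermat.Agent.MAZ.CuspJ0_20.Top
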